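import Fermat.Agent.EtaQuotient.Order

/-!
# Eta quotients as modular and cusp forms on `Γ₀(N)`

For even weight the orders at the cusps decide; for arbitrary exponents the square is invariant, so
the quotient itself is invariant up to sign.
-/

set_option autoImplicit false

noncomputable section

namespace FA.EtaQuotient

open UpperHalfPlane hiding I
open Complex Finset Filter Topology CongruenceSubgroup ModularForm
open scoped MatrixGroups Manifold

variable {N : ℕ} [NeZero N] {e : ℕ → ℤ}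

omit [NeZero N] in
theorem mdiff_quot : MDiff (quot N e) := by
  rw [UpperHalfPlane.mdifferentiable_iff]
  refine DifferentiableOn.congr (f := fun w : ℂ => ∏ δ ∈ N.divisors, η ((δ : ℂ) * w) ^ (2 * e δ))
    (fun w hw => ?_) (fun w hw => by
      simp only [Function.comp_apply, quot, ofComplex_apply_of_im_pos hw])
  have him : ∀ δ ∈ N.divisors, 0 < ((δ : ℂ) * w).im := fun δ hδ => by
    rw [Complex.mul_im, Complex.natCast_re, Complex.natCast_im, zero_mul, add_zero]
    exact mul_pos (Nat.cast_pos.2 (Nat.pos_of_mem_divisors hδ)) hw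
  refine (DifferentiableAt.fun_finsetProd fun δ hδ => ?_).differentiableWithinAt
  refine DifferentiableAt.zpow ?_ (Or.inl (eta_ne_zero (him δ hδ)))
  exact (differentiableAt_eta_of_mem_upperHalfPlaneSet (him δ hδ)).comp w
    (differentiableAt_id.const_mul _)

omit [NeZero N] in
theorem order_gcd (c : ℤ) :
    order N e ((Int.gcd c N : ℕ) : ℤ) = order N e c := by
  rw [order, order]
  congr 1
  refine sum_congr rfl fun δ hδ => ?_
  rw [Int.gcd_assoc, show Int.gcd (N : ℤ) δ = δ from
    Nat.gcd_eq_right (Nat.dvd_of_mem_divisors hδ)]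

omit [NeZero N] in
theorem exists_lowerLeft (c : ℤ) : ∃ γ : SL(2, ℤ), γ 1 0 = c :=
  ⟨⟨!![1, 0; c, 1], by simp [Matrix.det_fin_two_of]⟩, rfl⟩

/-- **The criterion for a modular form.** -/
theorem exists_modularForm_iff (hc : Congruences N e) (hk : Even (weight N e)) :
    (∃ f : ModularForm (Gamma0 N) (weight N e), ⇑f = quot N e) ↔
      ∀ c ∈ N.divisors, 0 ≤ order N e c := by
  constructor
  · rintro ⟨f, hf⟩ c -
    obtain ⟨γ, hγ⟩ := exists_lowerLeft (c : ℤ)
    rw [← hγ, ← isBounded_iff γ, ← hf]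
    have hcusp : IsCusp (Matrix.SpecialLinearGroup.mapGL ℝ γ • OnePoint.infty) 𝒮ℒ :=
      isCusp_SL2Z_iff'.2 ⟨γ, rfl⟩
    exact (OnePoint.isBoundedAt_iff_forall_SL2Z hcusp).1
      (f.bdd_at_cusps' (Subgroup.IsArithmetic.isCusp_iff_isCusp_SL2Z _ |>.2 hcusp)) γ rfl
  · intro h
    refine ⟨{ toFun := quot N e
              slash_action_eq' := ?_
              holo' := mdiff_quot
              bdd_at_cusps' := fun hcu => ?_ }, rfl⟩
    · rintro _ ⟨M, hM, rfl⟩
      exact quot_slash_even hc hk hM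
    · rw [Subgroup.IsArithmetic.isCusp_iff_isCusp_SL2Z] at hcu
      refine (OnePoint.isBoundedAt_iff_forall_SL2Z hcu).2 fun γ _ => (isBounded_iff γ).2 ?_
      rw [← order_gcd]
      exact h _ (Nat.mem_divisors.2 ⟨Int.natCast_dvd_natCast.1 (Int.gcd_dvd_right _ _),
        NeZero.ne N⟩)

/-- **The criterion for a cusp form.** -/
theorem exists_cuspForm_iff (hc : Congruences N e) (hk : Even (weight N e)) :
    (∃ f : CuspForm (Gamma0 N) (weight N e), ⇑f = quot N e) ↔
      ∀ c ∈ N.divisors, 0 < order N e c := by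
  constructor
  · rintro ⟨f, hf⟩ c -
    obtain ⟨γ, hγ⟩ := exists_lowerLeft (c : ℤ)
    rw [← hγ, ← isZero_iff γ, ← hf]
    have hcusp : IsCusp (Matrix.SpecialLinearGroup.mapGL ℝ γ • OnePoint.infty) 𝒮ℒ :=
      isCusp_SL2Z_iff'.2 ⟨γ, rfl⟩
    exact (OnePoint.isZeroAt_iff_forall_SL2Z hcusp).1
      (f.zero_at_cusps' (Subgroup.IsArithmetic.isCusp_iff_isCusp_SL2Z _ |>.2 hcusp)) γ rfl
  · intro h
    refine ⟨{ toFun := quot N e
              slash_action_eq' := ?_
              holo' := mdiff_quot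
              zero_at_cusps' := fun hcu => ?_ }, rfl⟩
    · rintro _ ⟨M, hM, rfl⟩
      exact quot_slash_even hc hk hM
    · rw [Subgroup.IsArithmetic.isCusp_iff_isCusp_SL2Z] at hcu
      refine (OnePoint.isZeroAt_iff_forall_SL2Z hcu).2 fun γ _ => (isZero_iff γ).2 ?_
      rw [← order_gcd]
      exact h _ (Nat.mem_divisors.2 ⟨Int.natCast_dvd_natCast.1 (Int.gcd_dvd_right _ _),
        NeZero.ne N⟩)

/-- `∏ η (δ z) ^ r δ`. -/
def quotAny (N : ℕ) (r : ℕ → ℤ) (z : ℍ) : ℂ := ∏ δ ∈ N.divisors, η ((δ : ℂ) * z) ^ r δ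

omit [NeZero N] in
theorem quotAny_sq (r : ℕ → ℤ) (z : ℍ) : quotAny N r z ^ 2 = quot N r z := by
  rw [quotAny, quot, ← prod_pow]
  exact prod_congr rfl fun δ _ => by
    rw [← zpow_natCast, ← zpow_mul, Nat.cast_ofNat, mul_comm (r δ)]

omit [NeZero N] in
/-- **Arbitrary exponents**: invariance up to sign. -/
theorem quotAny_slash {r : ℕ → ℤ} {k : ℤ} (hw : weight N r = 2 * k) (hc : Congruences N r)
    {g : SL(2, ℤ)} (hg : g ∈ Gamma0 N) :
    quotAny N r ∣[k] g = quotAny N r ∨ quotAny N r ∣[k] g = -quotAny N r := by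
  have hne : ∀ z : ℍ, quotAny N r z ≠ 0 := fun z h0 => quot_ne_zero (N := N) (e := r) z
    (by rw [← quotAny_sq, h0, zero_pow two_ne_zero])
  have hcont : Continuous (quotAny N r) := by
    refine continuous_finsetProd _ fun δ hδ => ?_
    have him : ∀ z : ℍ, 0 < ((δ : ℂ) * z).im := fun z => by
      rw [Complex.mul_im, Complex.natCast_re, Complex.natCast_im, zero_mul, add_zero]
      exact mul_pos (Nat.cast_pos.2 (Nat.pos_of_mem_divisors hδ)) z.im_pos
    refine Continuous.zpow₀ ?_ _ fun z => Or.inl (eta_ne_zero (him z))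
    exact continuous_iff_continuousAt.2 fun z =>
      (differentiableAt_eta_of_mem_upperHalfPlaneSet (him z)).continuousAt.comp
        (f := fun z : ℍ => (δ : ℂ) * z) (by fun_prop)
  have hsl : quotAny N r ∣[k] g = fun z => quotAny N r (g • z) * denom g z ^ (-k) :=
    funext fun z => ModularForm.SL_slash_apply _ _ _
  have hcont' : Continuous (quotAny N r ∣[k] g) := by
    rw [hsl]
    refine (hcont.comp (continuous_const_smul (g : GL (Fin 2) ℝ))).mul ?_
    exact (Continuous.zpow₀ (by simp only [denom]; fun_prop) _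
      fun z => Or.inl (denom_ne_zero _ z))
  have hsq : Set.EqOn ((quotAny N r ∣[k] g) ^ 2) (quotAny N r ^ 2) Set.univ := fun z _ => by
    have h := congrFun (quot_slash_even hc (hw ▸ even_two_mul k) hg) z
    rw [hw, ModularForm.SL_slash_apply] at h
    simp only [Pi.pow_apply]
    rw [hsl, mul_pow, quotAny_sq, quotAny_sq, ← zpow_natCast (denom g z ^ (-k)), ← zpow_mul]
    rw [show -k * ((2 : ℕ) : ℤ) = -(2 * k) by ring]
    exact h
  rcases isPreconnected_univ.eq_or_eq_neg_of_sq_eq hcont'.continuousOn hcont.continuousOn hsq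
    (fun {z} _ => hne z) with h | h
  · exact Or.inl (funext fun z => h (Set.mem_univ z))
  · exact Or.inr (funext fun z => h (Set.mem_univ z))

end FA.EtaQuotient

end
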