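import Fermat.Agent.Root.EtaEleven

/-!
# The multiplier of an eta quotient

`F = ∏ η (δ z) ^ (2 e δ)` over `δ ∣ N`. The multipliers of `η⁶` and `η⁸` are exponents modulo `4`
and `3` which are linear in `δ` and `N / δ`, so two congruences determine the multiplier of `F`.
-/

set_option autoImplicit false

noncomputable section

namespace FA.EtaQuotient

open UpperHalfPlane hiding I
open Complex Finset CongruenceSubgroup ModularForm FA.ModField FA.ModField.EtaQ
open FA.EtaEleven (formula3 exists_scaled etaPow_three_smul etaPow_four_smul)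
open scoped MatrixGroups

/-- `∏ η (δ z) ^ (2 e δ)`. -/
def quot (N : ℕ) (e : ℕ → ℤ) (z : ℍ) : ℂ :=
  ∏ δ ∈ N.divisors, η ((δ : ℂ) * z) ^ (2 * e δ)

/-- The weight `∑ e δ`. -/
def weight (N : ℕ) (e : ℕ → ℤ) : ℤ := ∑ δ ∈ N.divisors, e δ

/-- `exp (2πi x / m)`. -/
def psi (m : ℕ) [NeZero m] (x : ZMod m) : ℂ := rootC m ^ x.val

theorem psi_zero (m : ℕ) [NeZero m] : psi m 0 = 1 := by simp [psi]

theorem psi_add (m : ℕ) [NeZero m] (x y : ZMod m) : psi m (x + y) = psi m x * psi m y :=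
  rootC_pow_add m x y

theorem psi_ne_zero (m : ℕ) [NeZero m] (x : ZMod m) : psi m x ≠ 0 :=
  pow_ne_zero _ (rootC_ne_zero m)

theorem psi_intCast (m : ℕ) [NeZero m] (n : ℤ) : psi m (n : ZMod m) = rootC m ^ n := by
  induction n using Int.induction_on with
  | zero => simp [psi_zero]
  | succ n ih =>
    rw [Int.cast_add, Int.cast_one, psi_add, ih, zpow_add_one₀ (rootC_ne_zero m)]
    congr 1
    rcases eq_or_ne m 1 with rfl | hm
    · simp [psi, rootC, Complex.exp_two_pi_mul_I, Subsingleton.elim (1 : ZMod 1) 0]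
    · have : Fact (1 < m) := ⟨by have := NeZero.ne m; omega⟩
      simp [psi, ZMod.val_one]
  | pred n ih =>
    have h := psi_add m (((-(n : ℤ) - 1 : ℤ) : ZMod m)) 1
    have e1 : psi m (1 : ZMod m) = rootC m := by
      rcases eq_or_ne m 1 with rfl | hm
      · simp [psi, rootC, Complex.exp_two_pi_mul_I, Subsingleton.elim (1 : ZMod 1) 0]
      · have : Fact (1 < m) := ⟨by have := NeZero.ne m; omega⟩
        simp [psi, ZMod.val_one]
    rw [show ((-(n : ℤ) - 1 : ℤ) : ZMod m) + 1 = ((-(n : ℤ) : ℤ) : ZMod m) by push_cast; ring,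
      ih, e1] at h
    rw [zpow_sub_one₀ (rootC_ne_zero m), h, mul_assoc, mul_inv_cancel₀ (rootC_ne_zero m), mul_one]

theorem psi_zsmul (m : ℕ) [NeZero m] (x : ZMod m) (n : ℤ) : psi m (n • x) = psi m x ^ n := by
  conv_lhs => rw [← ZMod.intCast_zmod_cast x, zsmul_eq_mul, ← Int.cast_mul, psi_intCast, mul_comm,
    zpow_mul]
  rw [← psi_intCast, ZMod.intCast_zmod_cast]

theorem psi_sum (m : ℕ) [NeZero m] {ι : Type*} (s : Finset ι) (f : ι → ZMod m) :
    psi m (∑ i ∈ s, f i) = ∏ i ∈ s, psi m (f i) := by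
  classical
  induction s using Finset.induction with
  | empty => simp [psi_zero]
  | insert a s ha ih => rw [sum_insert ha, prod_insert ha, psi_add, ih]

theorem prod_zpow {ι : Type*} (s : Finset ι) {a : ℂ} (ha : a ≠ 0) (f : ι → ℤ) :
    ∏ i ∈ s, a ^ f i = a ^ ∑ i ∈ s, f i := by
  classical
  induction s using Finset.induction with
  | empty => simp
  | insert i s hi ih => rw [sum_insert hi, prod_insert hi, zpow_add₀ ha, ih]

variable {N : ℕ} {e : ℕ → ℤ}

theorem quot_ne_zero (z : ℍ) : quot N e z ≠ 0 := by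
  refine prod_ne_zero_iff.2 fun δ hδ => zpow_ne_zero _ (eta_ne_zero ?_)
  show 0 < ((δ : ℂ) * z).im
  rw [Complex.mul_im, Complex.natCast_re, Complex.natCast_im, zero_mul, add_zero]
  exact mul_pos (Nat.cast_pos.2 (Nat.pos_of_mem_divisors hδ)) z.im_pos

theorem quot_pow (w : ℕ) (z : ℍ) : quot N e z ^ w =
    ∏ δ ∈ N.divisors, (η ((δ : ℂ) * z) ^ (2 * w)) ^ e δ := by
  rw [quot, ← prod_pow]
  refine prod_congr rfl fun δ _ => ?_
  rw [← zpow_natCast, ← zpow_mul, ← zpow_natCast, ← zpow_mul]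
  push_cast
  ring_nf

/-- A power of `F` from a formula for the multiplier of that power of `η²`. -/
theorem quot_pow_smul {w m : ℕ} [NeZero m] (G : ZMod m → ZMod m → ZMod m → ZMod m → ZMod m)
    (hG : ∀ (g : SL(2, ℤ)) (z : ℍ), etaPow w (g • z) =
      psi m (G (g 0 0) (g 0 1) (g 1 0) (g 1 1)) * denom g z ^ w * etaPow w z)
    {g : SL(2, ℤ)} {t : ℤ} (ht : g 1 0 = N * t) (z : ℍ) :
    quot N e (g • z) ^ w = psi m (∑ δ ∈ N.divisors,
        e δ • G (g 0 0) ((δ : ZMod m) * (g 0 1 : ℤ)) (((N / δ : ℕ) : ZMod m) * t) (g 1 1)) *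
      denom g z ^ ((w : ℤ) * weight N e) * quot N e z ^ w := by
  have hj : denom g z ≠ 0 := denom_ne_zero _ _
  rw [quot_pow, quot_pow, psi_sum, weight, mul_sum, ← prod_zpow _ hj, ← prod_mul_distrib,
    ← prod_mul_distrib]
  refine prod_congr rfl fun δ hδ => ?_
  have : NeZero δ := ⟨(Nat.pos_of_mem_divisors hδ).ne'⟩
  obtain ⟨g', hg', hz⟩ := exists_scaled (d := δ) (g := g) (c := ((N / δ : ℕ) : ℤ) * t) (by
    rw [ht, ← mul_assoc, ← Nat.cast_mul, Nat.mul_div_cancel' (Nat.dvd_of_mem_divisors hδ)])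
  show (etaPow w (scaleH δ (g • z))) ^ e δ = _ * _ * (etaPow w (scaleH δ z)) ^ e δ
  rw [(hz z).1, hG, (hz z).2, psi_zsmul, zpow_mul, zpow_natCast, mul_zpow, mul_zpow]
  simp only [hg', Matrix.of_apply, Matrix.cons_val', Matrix.cons_val_zero, Matrix.cons_val_one,
    Matrix.empty_val', Matrix.cons_val_fin_one, Int.cast_mul, Int.cast_natCast]

theorem formula4_linear : ∀ a b t d x y : ZMod 4, a * d - b * (x * y * t) = 1 →
    formula4 a (x * b) (y * t) d = if (x * y * t).val % 2 = 1 then y * (t * (a + d + 1))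
      else x * (d * b) + y * (-(d * t)) + (d - 1) := by
  decide +kernel

theorem even_case : ∀ a b c d : ZMod 4, a * d - b * c = 1 → c.val % 2 ≠ 1 → 2 * (d - 1) = 0 := by
  decide +kernel

theorem odd_case : ∀ x : ℤ, ((x : ℤ) : ZMod 4).val % 2 = 1 → Odd x := by
  intro x hx
  have h := ZMod.val_intCast (n := 4) x
  rw [Int.odd_iff]
  omega

/-- The two congruences. -/
structure Congruences (N : ℕ) (e : ℕ → ℤ) : Prop where
  sum_mul : (12 : ℤ) ∣ ∑ δ ∈ N.divisors, (δ : ℤ) * e δ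
  sum_codiv : (12 : ℤ) ∣ ∑ δ ∈ N.divisors, ((N / δ : ℕ) : ℤ) * e δ

theorem sum_cast_eq_zero {m : ℕ} (hm : (m : ℤ) ∣ 12) {f : ℕ → ℕ}
    (h : (12 : ℤ) ∣ ∑ δ ∈ N.divisors, (f δ : ℤ) * e δ) :
    ∑ δ ∈ N.divisors, (e δ : ZMod m) * (f δ : ZMod m) = 0 := by
  have := (ZMod.intCast_zmod_eq_zero_iff_dvd _ m).2 (hm.trans h)
  push_cast at this
  rw [← this]
  exact sum_congr rfl fun δ _ => mul_comm _ _

/-- **The multiplier.** -/
theorem quot_smul (hc : Congruences N e) {g : SL(2, ℤ)} (hg : g ∈ Gamma0 N) (z : ℍ) :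
    quot N e (g • z) = (-1) ^ (weight N e * ((g 1 1 - 1) / 2)) * denom g z ^ weight N e *
      quot N e z := by
  rw [Gamma0_mem, ZMod.intCast_zmod_eq_zero_iff_dvd] at hg
  obtain ⟨t, ht⟩ := hg
  have hdet : g 0 0 * g 1 1 - g 0 1 * g 1 0 = 1 := by
    have := g.det_coe; rwa [Matrix.det_fin_two] at this
  rw [ht] at hdet
  obtain ⟨S, hS⟩ : ∃ S : ℂ, S = (-1) ^ (weight N e * ((g 1 1 - 1) / 2)) := ⟨_, rfl⟩
  have hS2 : S ^ 2 = 1 := by
    rw [hS, ← zpow_natCast, ← zpow_mul]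
    exact (even_two.mul_left _).neg_one_zpow
  obtain ⟨X, hX⟩ : ∃ X : ℂ, X = S * denom g z ^ weight N e * quot N e z := ⟨_, rfl⟩
  have hS0 : S ≠ 0 := fun h => by simp [h] at hS2
  have hX0 : X ≠ 0 := hX ▸ mul_ne_zero (mul_ne_zero hS0 (zpow_ne_zero _ (denom_ne_zero _ _)))
    (quot_ne_zero z)
  -- the sixth power of `η`
  have h3 : quot N e (g • z) ^ 3 = X ^ 3 := by
    rw [quot_pow_smul (w := 3) (m := 4) formula4 (fun g z => etaPow_three_smul g z) ht]
    have hd' := congrArg (Int.cast : ℤ → ZMod 4) hdet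
    push_cast at hd'
    have hterm : ∀ δ ∈ N.divisors,
        formula4 (g 0 0) ((δ : ZMod 4) * (g 0 1 : ℤ)) (((N / δ : ℕ) : ZMod 4) * t) (g 1 1) =
          if ((N : ZMod 4) * t).val % 2 = 1
          then ((N / δ : ℕ) : ZMod 4) * ((t : ZMod 4) * ((g 0 0 : ℤ) + (g 1 1 : ℤ) + 1))
          else (δ : ZMod 4) * ((g 1 1 : ℤ) * (g 0 1 : ℤ)) +
            ((N / δ : ℕ) : ZMod 4) * (-((g 1 1 : ℤ) * (t : ZMod 4))) + ((g 1 1 : ℤ) - 1) := by
      intro δ hδ
      have hN : (N : ZMod 4) = (δ : ZMod 4) * ((N / δ : ℕ) : ZMod 4) := by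
        rw [← Nat.cast_mul, Nat.mul_div_cancel' (Nat.dvd_of_mem_divisors hδ)]
      rw [hN] at hd'
      rw [hN]
      exact formula4_linear _ _ _ _ _ _ hd'
    have hsum : psi 4 (∑ δ ∈ N.divisors,
        e δ • formula4 (g 0 0) ((δ : ZMod 4) * (g 0 1 : ℤ)) (((N / δ : ℕ) : ZMod 4) * t) (g 1 1)) =
        S := by
      rw [sum_congr rfl fun δ hδ => by rw [hterm δ hδ]]
      by_cases hodd : ((N : ZMod 4) * t).val % 2 = 1
      · simp only [if_pos hodd, zsmul_eq_mul, ← mul_assoc, ← sum_mul,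
          sum_cast_eq_zero (m := 4) (by norm_num) hc.sum_codiv, zero_mul, psi_zero]
        have hNodd : Odd (N : ℤ) :=
          (Int.odd_mul.1 (odd_case _ (show ((((N : ℤ) * t : ℤ)) : ZMod 4).val % 2 = 1 by
            push_cast; exact hodd))).1
        have hk : Even (weight N e) := by
          obtain ⟨j, hj⟩ := hc.sum_mul
          rw [weight, ← ZMod.intCast_eq_zero_iff_even]
          have h2 : ((∑ δ ∈ N.divisors, (δ : ℤ) * e δ : ℤ) : ZMod 2) = 0 := by
            rw [hj, Int.cast_mul, show ((12 : ℤ) : ZMod 2) = 0 from rfl, zero_mul]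
          rw [← h2, Int.cast_sum, Int.cast_sum]
          refine sum_congr rfl fun δ hδ => ?_
          have : Odd δ := ((Int.odd_coe_nat N).1 hNodd).of_dvd_nat (Nat.dvd_of_mem_divisors hδ)
          rw [Int.cast_mul, Int.cast_natCast, ZMod.natCast_eq_one_iff_odd.2 this, one_mul]
        rw [hS, (hk.mul_right _).neg_one_zpow]
      · simp only [if_neg hodd, zsmul_eq_mul, mul_add, sum_add_distrib, ← mul_assoc, ← sum_mul,
          sum_cast_eq_zero (m := 4) (by norm_num) hc.sum_mul,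
          sum_cast_eq_zero (m := 4) (by norm_num) hc.sum_codiv, zero_mul, zero_add]
        have h2d := even_case _ _ _ _ hd' hodd
        have h2 : (2 : ℤ) ∣ g 1 1 - 1 := by
          have h4 : ((2 * (g 1 1 - 1) : ℤ) : ZMod 4) = 0 := by push_cast; exact h2d
          rw [ZMod.intCast_zmod_eq_zero_iff_dvd] at h4
          omega
        obtain ⟨u, hu⟩ := h2
        rw [show (∑ δ ∈ N.divisors, (e δ : ZMod 4)) * (((g 1 1 : ℤ) : ZMod 4) - 1) =
          ((weight N e * (g 1 1 - 1) : ℤ) : ZMod 4) by rw [weight]; push_cast; rfl,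
          psi_intCast, hS, hu, mul_left_comm, zpow_mul,
          show (2 * u) / 2 = u by omega, rootC]
        congr 1
        rw [show (2 : ℤ) = ((2 : ℕ) : ℤ) from rfl, zpow_natCast, ← Complex.exp_nat_mul,
          show (2 : ℕ) * (2 * (Real.pi : ℂ) * I / (4 : ℕ)) = Real.pi * I by push_cast; ring,
          Complex.exp_pi_mul_I]
    rw [hsum, hX, mul_pow, mul_pow, show S ^ 3 = S by rw [pow_succ, hS2, one_mul],
      ← zpow_natCast (denom g z ^ weight N e), ← zpow_mul, mul_comm (weight N e)]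
  -- the eighth power of `η`
  have h4 : quot N e (g • z) ^ 4 = X ^ 4 := by
    rw [quot_pow_smul (w := 4) (m := 3) formula3 (fun g z => etaPow_four_smul g z) ht]
    have hsum : ∑ δ ∈ N.divisors,
        e δ • formula3 (g 0 0) ((δ : ZMod 3) * (g 0 1 : ℤ)) (((N / δ : ℕ) : ZMod 3) * t) (g 1 1) =
        (∑ δ ∈ N.divisors, (e δ : ZMod 3) * ((N / δ : ℕ) : ZMod 3)) *
          (((g 0 0 : ℤ) + (g 1 1 : ℤ)) * (t : ZMod 3) -
            (g 0 1 : ℤ) * (g 1 1 : ℤ) * (N : ZMod 3) * t * t) +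
        (∑ δ ∈ N.divisors, (e δ : ZMod 3) * (δ : ZMod 3)) *
          ((g 0 1 : ℤ) * (g 1 1 : ℤ)) := by
      rw [sum_mul, sum_mul, ← sum_add_distrib]
      refine sum_congr rfl fun δ hδ => ?_
      have hN : (N : ZMod 3) = (δ : ZMod 3) * ((N / δ : ℕ) : ZMod 3) := by
        rw [← Nat.cast_mul, Nat.mul_div_cancel' (Nat.dvd_of_mem_divisors hδ)]
      rw [hN, zsmul_eq_mul, formula3]
      ring
    rw [hsum, sum_cast_eq_zero (m := 3) (by norm_num) hc.sum_codiv,
      sum_cast_eq_zero (m := 3) (by norm_num) hc.sum_mul, zero_mul, zero_mul, zero_add, psi_zero,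
      hX, mul_pow, mul_pow, show S ^ 4 = 1 by rw [show S ^ 4 = (S ^ 2) ^ 2 by ring, hS2, one_pow],
      ← zpow_natCast (denom g z ^ weight N e), ← zpow_mul, mul_comm (weight N e)]
  rw [← hS, ← hX]
  refine mul_left_cancel₀ (pow_ne_zero 3 hX0) ?_
  rw [← pow_succ, ← h4, ← h3]
  ring

theorem quot_slash (hc : Congruences N e) {g : SL(2, ℤ)} (hg : g ∈ Gamma0 N) :
    quot N e ∣[weight N e] g = ((-1 : ℂ) ^ (weight N e * ((g 1 1 - 1) / 2))) • quot N e := by
  funext z
  rw [ModularForm.SL_slash_apply, quot_smul hc hg, Pi.smul_apply, smul_eq_mul, zpow_neg]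
  field_simp

/-- Invariance for even weight. -/
theorem quot_slash_even (hc : Congruences N e) (hk : Even (weight N e)) {g : SL(2, ℤ)}
    (hg : g ∈ Gamma0 N) : quot N e ∣[weight N e] g = quot N e := by
  rw [quot_slash hc hg, (hk.mul_right _).neg_one_zpow, one_smul]

end FA.EtaQuotient

end
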