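import Fermat.Agent.EtaQuotient.Multiplier

/-!
# The orders of an eta quotient at the cusps

`[δ 0; 0 1] γ = γ' [A B; 0 D]` with `A = gcd (c, δ)`, so the twelfth power of `‖F ∣ γ‖` is a product
of `‖Δ ((A z + B) / D)‖ ^ e δ`, and `‖Δ w‖ exp (2π Im w) → 1`.
-/

set_option autoImplicit false

noncomputable section

namespace FA.EtaQuotient

open UpperHalfPlane hiding I
open Complex Finset Filter Topology ModularForm FA.ModField
open scoped Real MatrixGroups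

/-- The order at the cusps of denominator `c`. -/
def order (N : ℕ) (e : ℕ → ℤ) (c : ℤ) : ℝ :=
  (∑ δ ∈ N.divisors, (e δ : ℝ) * ((Int.gcd c δ : ℝ) ^ 2 / δ)) / 12

/-- `‖Δ w‖` without its leading exponential. -/
def unitPart (w : ℍ) : ℝ := ‖∏' n, (1 - eta_q n w) ^ 24‖

theorem norm_discriminant (w : ℍ) :
    ‖discriminant w‖ = Real.exp (-2 * π * w.im) * unitPart w := by
  rw [discriminant_eq_q_prod, norm_mul, Function.Periodic.norm_qParam, div_one, unitPart]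
  rfl

theorem tendsto_unitPart : Tendsto unitPart atImInfty (𝓝 1) := by
  have := tendsto_atImInfty_tprod_one_sub_eta_q_pow.norm
  rwa [norm_one] at this

theorem norm_discriminant_smul (g : SL(2, ℤ)) (w : ℍ) :
    ‖discriminant (g • w)‖ = ‖denom g w‖ ^ 12 * ‖discriminant w‖ := by
  have h := SlashInvariantForm.slash_action_eqn'' (CuspForm.discriminant : CuspForm 𝒮ℒ 12)
    (γ := (g : GL (Fin 2) ℝ)) (show (g : GL (Fin 2) ℝ) ∈ (𝒮ℒ : Subgroup (GL (Fin 2) ℝ)) from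
      ⟨g, rfl⟩) w
  have h' : discriminant (g • w) = denom g w ^ (12 : ℤ) * discriminant w := h
  rw [h', norm_mul, norm_zpow]
  norm_cast

/-- The factorisation for one `δ`. -/
theorem exists_factor (γ : SL(2, ℤ)) {δ : ℕ} [NeZero δ] :
    ∃ (γ' : SL(2, ℤ)) (D : ℕ) (Φ : ℍ → ℍ), D ≠ 0 ∧
      (∀ z : ℍ, (Φ z).im = (Int.gcd (γ 1 0) δ : ℝ) ^ 2 / δ * z.im) ∧
      ∀ z : ℍ, scaleH δ (γ • z) = γ' • Φ z ∧ denom γ' (Φ z) = denom γ z / D := by
  obtain ⟨A, hA⟩ : ∃ A, A = Int.gcd (γ 1 0) δ := ⟨_, rfl⟩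
  have hδ : δ ≠ 0 := NeZero.ne δ
  have hA0 : A ≠ 0 := hA ▸ fun h => hδ (by simpa using (Int.gcd_eq_zero_iff.1 h).2)
  obtain ⟨D, hD⟩ : A ∣ δ := by
    rw [hA]; exact Int.natCast_dvd_natCast.1 (Int.gcd_dvd_right _ _)
  have hD0 : D ≠ 0 := fun h => hδ (by rw [hD, h, mul_zero])
  obtain ⟨q, hq⟩ : (A : ℤ) ∣ γ 1 0 := hA ▸ Int.gcd_dvd_left _ _
  have hdet : γ 0 0 * γ 1 1 - γ 0 1 * γ 1 0 = 1 := by
    have := γ.det_coe; rwa [Matrix.det_fin_two] at this
  -- `D a` and `q` are coprime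
  have hco : IsCoprime ((D : ℤ) * γ 0 0) q := by
    have h1 : Int.gcd q D = 1 := by
      have h := hA
      rw [hq, hD, Nat.cast_mul, Int.gcd_mul_left, Int.natAbs_natCast] at h
      nlinarith [Nat.pos_of_ne_zero hA0]
    refine IsCoprime.mul_left (Int.isCoprime_iff_gcd_eq_one.2 h1).symm ?_
    exact ⟨γ 1 1, -(γ 0 1 * A), by linear_combination hdet + γ 0 1 * hq⟩
  obtain ⟨y, v, hyv⟩ := hco
  obtain ⟨γ', hγ'⟩ : ∃ γ' : SL(2, ℤ),
      (γ' : Matrix (Fin 2) (Fin 2) ℤ) = !![(D : ℤ) * γ 0 0, -v; q, y] :=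
    ⟨⟨_, by rw [Matrix.det_fin_two_of]; linear_combination hyv⟩, rfl⟩
  obtain ⟨B, hB⟩ : ∃ B : ℤ, B = y * δ * γ 0 1 + v * γ 1 1 := ⟨_, rfl⟩
  have hDpos : (0 : ℝ) < D := Nat.cast_pos.2 (Nat.pos_of_ne_zero hD0)
  have hApos : (0 : ℝ) < A := Nat.cast_pos.2 (Nat.pos_of_ne_zero hA0)
  have hDC : (D : ℂ) ≠ 0 := Nat.cast_ne_zero.2 hD0
  have hAC : (A : ℂ) ≠ 0 := Nat.cast_ne_zero.2 hA0
  have him : ∀ z : ℍ, (((A : ℂ) * z + B) / D).im = (A : ℝ) ^ 2 / δ * z.im := fun z => by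
    rw [hD, Nat.cast_mul, Complex.div_natCast_im, Complex.add_im, Complex.mul_im,
      Complex.natCast_re, Complex.natCast_im, Complex.intCast_im]
    show ((A : ℝ) * z.im + 0 * (z : ℂ).re + 0) / (D : ℝ) = _
    field_simp
    ring
  have hpos : ∀ z : ℍ, 0 < (((A : ℂ) * z + B) / D).im := fun z => by
    rw [him]
    have := z.im_pos
    positivity
  refine ⟨γ', D, fun z => ⟨((A : ℂ) * z + B) / D, hpos z⟩, hD0, fun z => by rw [← hA]; exact him z,
    fun z => ?_⟩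
  have hδC : (δ : ℂ) = A * D := by exact_mod_cast hD
  have hqC : ((γ 1 0 : ℤ) : ℂ) = A * q := by exact_mod_cast hq
  have hyvC : (y : ℂ) * (D * (γ 0 0 : ℤ)) + v * q = 1 := by exact_mod_cast hyv
  have hdetC : ((γ 0 0 : ℤ) : ℂ) * (γ 1 1 : ℤ) - (γ 0 1 : ℤ) * (γ 1 0 : ℤ) = 1 := by
    exact_mod_cast hdet
  have hBC : (B : ℂ) = y * (A * D) * (γ 0 1 : ℤ) + v * (γ 1 1 : ℤ) := by
    rw [hB]; push_cast; rw [hδC]
  have hden : denom γ' (((⟨((A : ℂ) * z + B) / D, hpos z⟩ : ℍ)) : ℂ) = denom γ z / D := by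
    rw [EtaQ.denom_SL, EtaQ.denom_SL, hγ']
    simp only [Matrix.of_apply, Matrix.cons_val', Matrix.cons_val_zero, Matrix.cons_val_one,
      Matrix.empty_val', Matrix.cons_val_fin_one]
    rw [hBC, hqC]
    field_simp
    linear_combination ((γ 1 1 : ℤ) : ℂ) * hyvC - (y : ℂ) * D * hdetC -
      (y : ℂ) * D * (γ 0 1 : ℤ) * hqC
  refine ⟨?_, hden⟩
  rw [EtaQ.denom_SL, EtaQ.denom_SL, hγ'] at hden
  simp only [Matrix.of_apply, Matrix.cons_val', Matrix.cons_val_zero, Matrix.cons_val_one,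
    Matrix.empty_val', Matrix.cons_val_fin_one] at hden
  have hdz := UpperHalfPlane.denom_ne_zero (γ : GL (Fin 2) ℝ) z
  rw [EtaQ.denom_SL] at hdz
  ext
  rw [coe_scaleH, coe_smul_int, coe_smul_int, hγ']
  simp only [Matrix.of_apply, Matrix.cons_val', Matrix.cons_val_zero, Matrix.cons_val_one,
    Matrix.empty_val', Matrix.cons_val_fin_one]
  have hnum : ((((D : ℤ) * γ 0 0 : ℤ)) : ℂ) * (((A : ℂ) * z + B) / D) + (((-v : ℤ)) : ℂ) =
      (A : ℂ) * ((γ 0 0 : ℤ) * z + (γ 0 1 : ℤ)) := by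
    rw [hBC]
    push_cast
    field_simp
    linear_combination ((A : ℂ) * (γ 0 1 : ℤ)) * hyvC + (v : ℂ) * hdetC +
      (v : ℂ) * (γ 0 1 : ℤ) * hqC
  rw [hnum, hden, hδC]
  field_simp

variable {N : ℕ} {e : ℕ → ℤ}

theorem norm_quot_pow (z : ℍ) : ‖quot N e z‖ ^ 12 =
    ∏ δ ∈ N.divisors, ‖η ((δ : ℂ) * z) ^ 24‖ ^ e δ := by
  rw [← norm_pow, quot_pow, norm_prod]
  exact prod_congr rfl fun δ _ => by rw [norm_zpow]

/-- **The order at the cusp `γ ∞`.** -/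
theorem tendsto_norm_slash (γ : SL(2, ℤ)) :
    ∃ L : ℝ, 0 < L ∧ Tendsto (fun z => ‖(quot N e ∣[weight N e] γ) z‖ *
      Real.exp (2 * π * order N e (γ 1 0) * z.im)) atImInfty (𝓝 L) := by
  have hf : ∀ δ ∈ N.divisors, ∃ (D : ℕ) (Φ : ℍ → ℍ), D ≠ 0 ∧
      (∀ z : ℍ, (Φ z).im = (Int.gcd (γ 1 0) δ : ℝ) ^ 2 / δ * z.im) ∧
      ∀ z : ℍ, ‖η ((δ : ℂ) * ((γ • z : ℍ) : ℂ)) ^ 24‖ =
        (‖denom γ z‖ / D) ^ 12 * ‖discriminant (Φ z)‖ := fun δ hδ => by
    have : NeZero δ := ⟨(Nat.pos_of_mem_divisors hδ).ne'⟩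
    obtain ⟨γ', D, Φ, hD, him, hz⟩ := exists_factor γ (δ := δ)
    refine ⟨D, Φ, hD, him, fun z => ?_⟩
    show ‖discriminant (scaleH δ (γ • z))‖ = _
    rw [(hz z).1, norm_discriminant_smul, (hz z).2, norm_div, Complex.norm_natCast]
  choose! D Φ hD him hη using hf
  have key : ∀ z : ℍ, (‖(quot N e ∣[weight N e] γ) z‖ *
      Real.exp (2 * π * order N e (γ 1 0) * z.im)) ^ 12 =
      ∏ δ ∈ N.divisors, (unitPart (Φ δ z) / (D δ : ℝ) ^ 12) ^ e δ := fun z => by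
    have hj : ‖denom γ z‖ ≠ 0 := norm_ne_zero_iff.2 (denom_ne_zero _ _)
    rw [ModularForm.SL_slash_apply, norm_mul, norm_zpow, mul_pow, mul_pow, norm_quot_pow,
      ← zpow_natCast (‖denom γ z‖ ^ (-weight N e)), ← zpow_mul, ← Real.exp_nat_mul]
    rw [prod_congr rfl fun δ hδ => by rw [hη δ hδ z, norm_discriminant, him δ hδ z]]
    have hexp : ((12 : ℕ) : ℝ) * (2 * π * order N e (γ 1 0) * z.im) =
        ∑ δ ∈ N.divisors, (e δ : ℝ) * (2 * π * ((Int.gcd (γ 1 0) δ : ℝ) ^ 2 / δ * z.im)) := by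
      rw [order, Nat.cast_ofNat, ← mul_assoc, ← mul_assoc,
        show ∀ s : ℝ, 12 * (2 * π) * (s / 12) = 2 * π * s from fun s => by ring, mul_sum, sum_mul]
      exact sum_congr rfl fun δ _ => by ring
    have hjsum : ‖denom γ z‖ ^ (-weight N e * ((12 : ℕ) : ℤ)) =
        ∏ δ ∈ N.divisors, (‖denom γ z‖ ^ (-(12 : ℤ))) ^ e δ := by
      rw [prod_congr rfl fun δ _ => (zpow_mul ‖denom γ z‖ (-(12 : ℤ)) (e δ)).symm, weight]
      push_cast
      rw [neg_mul, sum_mul, ← sum_neg_distrib]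
      induction N.divisors using Finset.induction with
      | empty => simp
      | insert i s hi ih => rw [sum_insert hi, prod_insert hi, zpow_add₀ hj, ih]; congr 2; ring
    rw [hexp, Real.exp_sum, hjsum, ← prod_mul_distrib, ← prod_mul_distrib]
    refine prod_congr rfl fun δ _ => ?_
    rw [mul_comm (e δ : ℝ), Real.exp_mul _ (e δ : ℝ), Real.rpow_intCast, ← mul_zpow, ← mul_zpow]
    congr 1
    rw [show -2 * π * ((Int.gcd (γ 1 0) δ : ℝ) ^ 2 / δ * z.im) =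
      -(2 * π * ((Int.gcd (γ 1 0) δ : ℝ) ^ 2 / δ * z.im)) by ring, Real.exp_neg, zpow_neg,
      show (12 : ℤ) = ((12 : ℕ) : ℤ) from rfl, zpow_natCast, div_pow]
    field_simp [Real.exp_ne_zero]
  obtain ⟨C, hC⟩ : ∃ C : ℝ, C = ∏ δ ∈ N.divisors, (1 / (D δ : ℝ) ^ 12) ^ e δ := ⟨_, rfl⟩
  have hC0 : 0 < C := hC ▸ prod_pos fun δ hδ => zpow_pos (by
    have : (0 : ℝ) < D δ := Nat.cast_pos.2 (Nat.pos_of_ne_zero (hD δ hδ))
    positivity) _
  have hlim : Tendsto (fun z => ∏ δ ∈ N.divisors, (unitPart (Φ δ z) / (D δ : ℝ) ^ 12) ^ e δ)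
      atImInfty (𝓝 C) := by
    rw [hC]
    refine tendsto_finsetProd _ fun δ hδ => ?_
    have hδpos : (0 : ℝ) < δ := Nat.cast_pos.2 (Nat.pos_of_mem_divisors hδ)
    have hg : (0 : ℝ) < (Int.gcd (γ 1 0) δ : ℝ) :=
      Nat.cast_pos.2 (Nat.pos_of_ne_zero fun h => by
        have := (Int.gcd_eq_zero_iff.1 h).2
        exact (Nat.pos_of_mem_divisors hδ).ne' (by exact_mod_cast this))
    have hΦ : Tendsto (Φ δ) atImInfty atImInfty := by
      rw [atImInfty, tendsto_comap_iff, Function.comp_def]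
      simp only [him δ hδ]
      exact tendsto_comap.const_mul_atTop (by positivity)
    exact ((tendsto_unitPart.comp hΦ).div_const _).zpow₀ _ (Or.inl (by
      have : (0 : ℝ) < D δ := Nat.cast_pos.2 (Nat.pos_of_ne_zero (hD δ hδ))
      positivity))
  refine ⟨C ^ (((12 : ℕ) : ℝ)⁻¹), Real.rpow_pos_of_pos hC0 _, ?_⟩
  refine (hlim.rpow_const (Or.inl hC0.ne')).congr fun z => ?_
  rw [← key, Real.pow_rpow_inv_natCast (by positivity) (by norm_num)]

/-- `F ∣ γ` is bounded at `i∞` iff the order is nonnegative. -/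
theorem isBounded_iff (γ : SL(2, ℤ)) :
    IsBoundedAtImInfty (quot N e ∣[weight N e] γ) ↔ 0 ≤ order N e (γ 1 0) := by
  obtain ⟨L, hL, hlim⟩ := tendsto_norm_slash (N := N) (e := e) γ
  rw [isBoundedAtImInfty_iff]
  constructor
  · rintro ⟨M, A, hM⟩
    by_contra hneg
    push Not at hneg
    have him : Tendsto (fun z : ℍ => Real.exp (2 * π * order N e (γ 1 0) * z.im)) atImInfty
        (𝓝 0) := by
      refine Real.tendsto_exp_atBot.comp ?_
      exact tendsto_comap.const_mul_atTop_of_neg (mul_neg_of_pos_of_neg (by positivity) hneg)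
    have hz := (him.const_mul M)
    rw [mul_zero] at hz
    have hev : ∀ᶠ z in atImInfty, ‖(quot N e ∣[weight N e] γ) z‖ *
        Real.exp (2 * π * order N e (γ 1 0) * z.im) ≤
        M * Real.exp (2 * π * order N e (γ 1 0) * z.im) :=
      (atImInfty_mem _).2 ⟨A, fun z hz => mul_le_mul_of_nonneg_right (hM z hz) (Real.exp_pos _).le⟩
    exact (lt_irrefl (0 : ℝ)) (hL.trans_le (le_of_tendsto_of_tendsto hlim hz hev))
  · intro hord
    obtain ⟨A, hA⟩ := (atImInfty_mem _).1 (hlim.eventually (Iic_mem_nhds (lt_add_one L)))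
    refine ⟨L + 1, A, fun z hz => le_trans ?_ (hA z hz)⟩
    exact le_mul_of_one_le_right (norm_nonneg _) (Real.one_le_exp (by
      have := z.im_pos
      positivity))

/-- `F ∣ γ` vanishes at `i∞` iff the order is positive. -/
theorem isZero_iff (γ : SL(2, ℤ)) :
    IsZeroAtImInfty (quot N e ∣[weight N e] γ) ↔ 0 < order N e (γ 1 0) := by
  obtain ⟨L, hL, hlim⟩ := tendsto_norm_slash (N := N) (e := e) γ
  constructor
  · intro h
    have h0 := (isBounded_iff γ).1 h.isBoundedAtImInfty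
    refine lt_of_le_of_ne h0 fun heq => ?_
    rw [← heq] at hlim
    simp only [mul_zero, zero_mul, Real.exp_zero, mul_one] at hlim
    have : NeBot (atImInfty) := inferInstance
    exact hL.ne (tendsto_nhds_unique (tendsto_zero_iff_norm_tendsto_zero.1 h) hlim)
  · intro hord
    refine tendsto_zero_iff_norm_tendsto_zero.2 ?_
    have him : Tendsto (fun z : ℍ => Real.exp (-(2 * π * order N e (γ 1 0) * z.im))) atImInfty
        (𝓝 0) := Real.tendsto_exp_atBot.comp (tendsto_neg_atTop_atBot.comp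
      (tendsto_comap.const_mul_atTop (by positivity)))
    have := hlim.mul him
    rw [mul_zero] at this
    refine this.congr fun z => ?_
    rw [mul_assoc, ← Real.exp_add, add_neg_cancel, Real.exp_zero, mul_one]

end FA.EtaQuotient

end
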